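import Fermat.Agent.MUL.Orig.L.Degen.IntMat
import Fermat.Agent.MUL.Orig.L.Defs
import Fermat.Agent.MUL.Orig.L.Degen.Wreath
import Fermat.Agent.MUL.Orig.Lib.GaussInt.Unramified

section MergeWrap_L_Degen_Decomp -- from L/Degen/Decomp.lean

set_option autoImplicit false

noncomputable section

namespace Fermat.Agent.LDeg

open CongruenceSubgroup Matrix.SpecialLinearGroup
open scoped MatrixGroups

variable {ℓ : ℕ} [Fact ℓ.Prime]

theorem prime_ne_zero' : (ℓ : ℤ) ≠ 0 := by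
  exact_mod_cast (Fact.out : ℓ.Prime).ne_zero

theorem isCoprime_of_not_dvd {K : ℕ} (hK : ¬ ℓ ∣ K) : IsCoprime (K : ℤ) (ℓ : ℤ) := by
  rw [Int.isCoprime_iff_gcd_eq_one, Int.gcd_natCast_natCast]
  exact (Nat.Coprime.symm ((Nat.Prime.coprime_iff_not_dvd Fact.out).mpr hK))

/-- **Decomposition.** -/
theorem exists_heckeInt_decomp {K : ℕ} (hK : ¬ ℓ ∣ K) (M : Matrix (Fin 2) (Fin 2) ℤ)
    (hdet : M.det = ℓ) (hM : (K : ℤ) ∣ M 1 0) :
    ∃ (x : OnePoint (ZMod ℓ)) (n : SL(2, ℤ)), (K : ℤ) ∣ n 1 0 ∧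
      M = (n : Matrix (Fin 2) (Fin 2) ℤ) * heckeInt ℓ x := by
  have hℓ0 : (ℓ : ℤ) ≠ 0 := prime_ne_zero'
  rw [Matrix.det_fin_two] at hdet
  by_cases h : (ℓ : ℤ) ∣ M 0 0 ∧ (ℓ : ℤ) ∣ M 1 0
  · obtain ⟨⟨a, ha⟩, ⟨c, hc⟩⟩ := h
    have hdet1 : a * M 1 1 - M 0 1 * c = 1 := by
      apply mul_left_cancel₀ hℓ0
      rw [ha, hc] at hdet
      linear_combination hdet
    refine ⟨OnePoint.infty, ⟨!![a, M 0 1; c, M 1 1], by
      rw [Matrix.det_fin_two_of]; exact hdet1⟩, ?_, ?_⟩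
    · show (K : ℤ) ∣ c
      have h1 : (K : ℤ) ∣ (ℓ : ℤ) * c := hc ▸ hM
      exact (isCoprime_of_not_dvd hK).dvd_of_dvd_mul_left h1
    · ext i j
      fin_cases i <;> fin_cases j <;>
        simp [Matrix.mul_apply, Fin.sum_univ_two, ha, hc, mul_comm]
  · -- some `t` with `M 0 0 * t = M 0 1` and `M 1 0 * t = M 1 1` mod `ℓ`
    have hdetZ : ((M 0 0 : ℤ) : ZMod ℓ) * ((M 1 1 : ℤ) : ZMod ℓ) =
        ((M 0 1 : ℤ) : ZMod ℓ) * ((M 1 0 : ℤ) : ZMod ℓ) := by
      have := congrArg (Int.cast : ℤ → ZMod ℓ) hdet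
      push_cast at this
      rw [ZMod.natCast_self] at this
      linear_combination this
    obtain ⟨t, ht0, ht1⟩ : ∃ t : ZMod ℓ, ((M 0 0 : ℤ) : ZMod ℓ) * t = ((M 0 1 : ℤ) : ZMod ℓ) ∧
        ((M 1 0 : ℤ) : ZMod ℓ) * t = ((M 1 1 : ℤ) : ZMod ℓ) := by
      by_cases h0 : ((M 0 0 : ℤ) : ZMod ℓ) = 0
      · have h1 : ((M 1 0 : ℤ) : ZMod ℓ) ≠ 0 := by
          intro h1
          exact h ⟨(ZMod.intCast_zmod_eq_zero_iff_dvd _ _).mp h0,
            (ZMod.intCast_zmod_eq_zero_iff_dvd _ _).mp h1⟩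
        refine ⟨((M 1 1 : ℤ) : ZMod ℓ) / ((M 1 0 : ℤ) : ZMod ℓ), ?_, ?_⟩
        · rw [h0, zero_mul]
          rw [h0, zero_mul] at hdetZ
          rcases mul_eq_zero.mp hdetZ.symm with h2 | h2
          · exact h2.symm
          · exact absurd h2 h1
        · field_simp
      · refine ⟨((M 0 1 : ℤ) : ZMod ℓ) / ((M 0 0 : ℤ) : ZMod ℓ), ?_, ?_⟩
        · field_simp
        · field_simp
          linear_combination -hdetZ
    obtain ⟨b', hb'⟩ : (ℓ : ℤ) ∣ M 0 1 - M 0 0 * (t.val : ℤ) := by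
      rw [← ZMod.intCast_zmod_eq_zero_iff_dvd]
      push_cast
      rw [ZMod.natCast_zmod_val, ht0, sub_self]
    obtain ⟨d', hd'⟩ : (ℓ : ℤ) ∣ M 1 1 - M 1 0 * (t.val : ℤ) := by
      rw [← ZMod.intCast_zmod_eq_zero_iff_dvd]
      push_cast
      rw [ZMod.natCast_zmod_val, ht1, sub_self]
    have hdet1 : M 0 0 * d' - b' * M 1 0 = 1 := by
      apply mul_left_cancel₀ hℓ0
      linear_combination hdet - (M 0 0) * hd' + (M 1 0) * hb'
    refine ⟨(t : OnePoint (ZMod ℓ)), ⟨!![M 0 0, b'; M 1 0, d'], by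
      rw [Matrix.det_fin_two_of]; exact hdet1⟩, hM, ?_⟩
    ext i j
    fin_cases i <;> fin_cases j <;>
      simp [Matrix.mul_apply, Fin.sum_univ_two, -ZMod.natCast_val]
    · linear_combination hb'
    · linear_combination hd'

/-- **Distinctness** of the cosets `SL₂(ℤ) α_x`. -/
theorem heckeInt_distinct (n : SL(2, ℤ)) (x x' : OnePoint (ZMod ℓ))
    (h : heckeInt ℓ x = (n : Matrix (Fin 2) (Fin 2) ℤ) * heckeInt ℓ x') : x = x' := by
  have hℓ1 : ¬ (ℓ : ℤ) ∣ 1 := by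
    intro h1
    have := Int.eq_one_of_dvd_one (by positivity) h1
    have h2 : ℓ = 1 := by exact_mod_cast this
    exact (Fact.out : ℓ.Prime).one_lt.ne' h2
  have e00 := congrFun (congrFun h 0) 0
  have e01 := congrFun (congrFun h 0) 1
  have e10 := congrFun (congrFun h 1) 0
  have e11 := congrFun (congrFun h 1) 1
  induction x using OnePoint.rec with
  | infty =>
    induction x' using OnePoint.rec with
    | infty => rfl
    | coe k' =>
      exfalso
      simp [Matrix.mul_apply, Fin.sum_univ_two, -ZMod.natCast_val] at e00 e01 e10 e11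
      apply hℓ1
      refine ⟨(n : Matrix (Fin 2) (Fin 2) ℤ) 1 1, ?_⟩
      rw [← e10] at e11
      linear_combination e11
  | coe k =>
    induction x' using OnePoint.rec with
    | infty =>
      exfalso
      simp [Matrix.mul_apply, Fin.sum_univ_two, -ZMod.natCast_val] at e00 e01 e10 e11
      apply hℓ1
      refine ⟨(n : Matrix (Fin 2) (Fin 2) ℤ) 0 0, ?_⟩
      linear_combination e00
    | coe k' =>
      simp [Matrix.mul_apply, Fin.sum_univ_two, -ZMod.natCast_val] at e00 e01 e10 e11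
      congr 1
      have h1 : ((k.val : ℤ) : ZMod ℓ) = ((k'.val : ℤ) : ZMod ℓ) := by
        rw [e01, ← e00]
        push_cast
        simp
      push_cast at h1
      rwa [ZMod.natCast_zmod_val, ZMod.natCast_zmod_val] at h1

/-- The lower left entries in a Hecke relation. -/
theorem heckeInt_lowerLeft (g g' : Matrix (Fin 2) (Fin 2) ℤ) (x x' : OnePoint (ZMod ℓ))
    (h : heckeInt ℓ x * g = g' * heckeInt ℓ x') {q : ℕ} (hq : q.Prime) (hqℓ : q ≠ ℓ)
    (hg' : (q : ℤ) ∣ g' 1 0) : (q : ℤ) ∣ g 1 0 := by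
  have e10 := congrFun (congrFun h 1) 0
  have hqp : Prime (q : ℤ) := Nat.prime_iff_prime_int.mp hq
  have hqℓ' : ¬ (q : ℤ) ∣ (ℓ : ℤ) := by
    intro h1
    have h2 : q ∣ ℓ := by exact_mod_cast h1
    exact hqℓ ((Nat.prime_dvd_prime_iff_eq hq Fact.out).mp h2)
  have key : (q : ℤ) ∣ (ℓ : ℤ) * g 1 0 ∨ (q : ℤ) ∣ g 1 0 := by
    induction x using OnePoint.rec with
    | infty =>
      right
      induction x' using OnePoint.rec with
      | infty =>
        have e : g 1 0 = g' 1 0 * (ℓ : ℤ) := by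
          simpa [Matrix.mul_apply, Fin.sum_univ_two] using e10
        rw [e]
        exact Dvd.dvd.mul_right hg' _
      | coe k' =>
        have e : g 1 0 = g' 1 0 := by
          simpa [Matrix.mul_apply, Fin.sum_univ_two] using e10
        rw [e]
        exact hg'
    | coe k =>
      left
      induction x' using OnePoint.rec with
      | infty =>
        have e : (ℓ : ℤ) * g 1 0 = g' 1 0 * (ℓ : ℤ) := by
          simpa [Matrix.mul_apply, Fin.sum_univ_two] using e10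
        rw [e]
        exact Dvd.dvd.mul_right hg' _
      | coe k' =>
        have e : (ℓ : ℤ) * g 1 0 = g' 1 0 := by
          simpa [Matrix.mul_apply, Fin.sum_univ_two] using e10
        rw [e]
        exact hg'
  rcases key with h1 | h1
  · exact (hqp.dvd_or_dvd h1).resolve_left hqℓ'
  · exact h1

end Fermat.Agent.LDeg
end
end MergeWrap_L_Degen_Decomp

section MergeWrap_L_Degen_Families -- from L/Degen/Families.lean

set_option autoImplicit false

noncomputable section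

namespace Fermat.Agent.LDeg

open CongruenceSubgroup Matrix.SpecialLinearGroup ModularCurve.Period
open Fermat.Agent.F3EC Fermat.Agent.L
open scoped MatrixGroups
open P2MW.S_ModularForm_heckeT_slash_eq_self_of_mem_Gamma0.ModularForm.HeckeSlashInvariance

section Hecke

variable {K : ℕ} {ℓ : ℕ} [Fact ℓ.Prime]

/-- The wreath hom of `T_ℓ` at level `K`. -/
def heckeW (hℓK : ¬ ℓ ∣ K) : WreathHom (Gamma0 K) (Gamma0 K) (OnePoint (ZMod ℓ)) where
  perm γ x := redMatrix ℓ (γ : SL(2, ℤ)) • x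
  elt γ x := heckeCoset hℓK γ x
  perm_one x := by
    show redMatrix ℓ ((1 : Gamma0 K) : SL(2, ℤ)) • x = x
    rw [Subgroup.coe_one, redMatrix_one, one_smul]
  perm_mul γ δ x := by
    show redMatrix ℓ ((γ * δ : Gamma0 K) : SL(2, ℤ)) • x =
      redMatrix ℓ (δ : SL(2, ℤ)) • (redMatrix ℓ (γ : SL(2, ℤ)) • x)
    rw [Subgroup.coe_mul, redMatrix_mul, mul_smul]
  elt_mul γ δ x := heckeCoset_mul hℓK γ δ x

theorem heckeW_op (hℓK : ¬ ℓ ∣ K) (A : Type*) [AddCommGroup A] :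
    (heckeW hℓK).op A = heckeHomAll hℓK A := rfl

theorem heckeW_realizes (hℓK : ¬ ℓ ∣ K) :
    (heckeW hℓK).Realizes (iotaG K) (iotaG K) (heckeRep ℓ) :=
  fun γ x => heckeCoset_spec hℓK γ x

theorem heckeRep_cosetsDistinct (K : ℕ) : CosetsDistinct (iotaG K) (heckeRep ℓ) := by
  intro x x' n h
  have hℓ : ℓ ≠ 0 := (Fact.out : ℓ.Prime).ne_zero
  rw [heckeRep_eq_intGL hℓ, heckeRep_eq_intGL hℓ, iotaG_eq_intGL, intGL_eq_mul_iff] at h
  exact heckeInt_distinct _ _ _ h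

end Hecke

section Res

variable (N q : ℕ)

/-- The wreath hom of `res`. -/
def resW : WreathHom (Gamma0 (N * q)) (Gamma0 N) Unit where
  perm _ _ := ()
  elt γ _ := incl N q γ
  perm_one _ := rfl
  perm_mul _ _ _ := rfl
  elt_mul γ δ _ := map_mul _ γ δ

theorem resW_op (A : Type*) [AddCommGroup A] : (resW N q).op A = resAll N q A := by
  refine AddMonoidHom.ext fun c => AddMonoidHom.ext fun γ => ?_
  obtain ⟨γ, rfl⟩ := Additive.ofMul.surjective γ
  simp [resW]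

theorem resW_realizes :
    (resW N q).Realizes (iotaG (N * q)) (iotaG N) (fun _ => (1 : GL (Fin 2) ℝ)) := by
  intro γ _
  simp [resW, iotaG_apply]

variable [NeZero q]

/-- The wreath hom of `res_δ`. -/
def resDW : WreathHom (Gamma0 (N * q)) (Gamma0 N) Unit where
  perm _ _ := ()
  elt γ _ := inclD N q γ
  perm_one _ := rfl
  perm_mul _ _ _ := rfl
  elt_mul γ δ _ := map_mul _ γ δ

theorem resDW_op (A : Type*) [AddCommGroup A] : (resDW N q).op A = resAllD N q A := by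
  refine AddMonoidHom.ext fun c => AddMonoidHom.ext fun γ => ?_
  obtain ⟨γ, rfl⟩ := Additive.ofMul.surjective γ
  simp [resDW]

/-- `δ γ = (δ γ δ⁻¹) δ` as integer matrices. -/
theorem heckeInt_infty_mul (γ : Gamma0 (N * q)) :
    heckeInt q OnePoint.infty * ((γ : SL(2, ℤ)) : Matrix (Fin 2) (Fin 2) ℤ) =
      (((inclD N q γ : Gamma0 N) : SL(2, ℤ)) : Matrix (Fin 2) (Fin 2) ℤ) *
        heckeInt q OnePoint.infty := by
  obtain ⟨c, hc⟩ := q_dvd_of_mem N q γ.2
  have hq : (q : ℤ) ≠ 0 := by exact_mod_cast NeZero.ne q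
  have hdiv : (γ : SL(2, ℤ)) 1 0 / (q : ℤ) = c := by
    rw [hc, Int.mul_ediv_cancel_left _ hq]
  rw [inclD_coe]
  ext i j
  fin_cases i <;> fin_cases j <;>
    simp [conjDMat, Matrix.mul_apply, Fin.sum_univ_two, hdiv, mul_comm]
  rw [hc, mul_comm]

theorem resDW_realizes :
    (resDW N q).Realizes (iotaG (N * q)) (iotaG N) (fun _ => heckeRep q OnePoint.infty) := by
  intro γ _
  have hq : q ≠ 0 := NeZero.ne q
  show heckeRep q OnePoint.infty * iotaG (N * q) γ =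
    iotaG N (inclD N q γ) * heckeRep q OnePoint.infty
  rw [heckeRep_eq_intGL hq, iotaG_eq_intGL, iotaG_eq_intGL, intGL_mul_eq_mul_iff]
  exact heckeInt_infty_mul N q γ

end Res

end Fermat.Agent.LDeg
end
end MergeWrap_L_Degen_Families

section MergeWrap_L_Degen_Reps -- from L/Degen/Reps.lean

set_option autoImplicit false

noncomputable section

namespace Fermat.Agent.LDeg

open CongruenceSubgroup Matrix.SpecialLinearGroup ModularCurve.Period
open Fermat.Agent.F3EC Fermat.Agent.L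
open scoped MatrixGroups

/-- An integer matrix as an element of `SL(2, ℤ)` (junk value `1` if the determinant is not `1`). -/
def mkSL (M : Matrix (Fin 2) (Fin 2) ℤ) : SL(2, ℤ) :=
  if h : M.det = 1 then ⟨M, h⟩ else 1

theorem coe_mkSL {M : Matrix (Fin 2) (Fin 2) ℤ} (h : M.det = 1) :
    ((mkSL M : SL(2, ℤ)) : Matrix (Fin 2) (Fin 2) ℤ) = M := by
  have h1 : mkSL M = ⟨M, h⟩ := dif_pos h
  rw [h1]

/-- An integer matrix as an element of `Γ₀(K)` (junk value `1`). -/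
def mkGamma0 (K : ℕ) (M : Matrix (Fin 2) (Fin 2) ℤ) : Gamma0 K :=
  if h : (K : ℤ) ∣ (mkSL M) 1 0 then ⟨mkSL M, mem_Gamma0_iff_dvd.mpr h⟩ else 1

theorem coe_mkGamma0 {K : ℕ} {M : Matrix (Fin 2) (Fin 2) ℤ} (h : M.det = 1)
    (h' : (K : ℤ) ∣ M 1 0) :
    (((mkGamma0 K M : Gamma0 K) : SL(2, ℤ)) : Matrix (Fin 2) (Fin 2) ℤ) = M := by
  have h2 : (K : ℤ) ∣ (mkSL M) 1 0 := by
    show (K : ℤ) ∣ ((mkSL M : SL(2, ℤ)) : Matrix (Fin 2) (Fin 2) ℤ) 1 0
    rw [coe_mkSL h]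
    exact h'
  have h3 : mkGamma0 K M = ⟨mkSL M, mem_Gamma0_iff_dvd.mpr h2⟩ := dif_pos h2
  rw [h3]
  exact coe_mkSL h

/-- Equality in `Γ₀(K)` is equality of integer matrices. -/
theorem Gamma0_ext {K : ℕ} {a b : Gamma0 K}
    (h : ((a : SL(2, ℤ)) : Matrix (Fin 2) (Fin 2) ℤ) = ((b : SL(2, ℤ)) : Matrix (Fin 2) (Fin 2) ℤ)) :
    a = b :=
  Subtype.ext (Subtype.ext h)

theorem coe_Gamma0_mul {K : ℕ} (a b : Gamma0 K) :
    (((a * b : Gamma0 K) : SL(2, ℤ)) : Matrix (Fin 2) (Fin 2) ℤ) =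
      ((a : SL(2, ℤ)) : Matrix (Fin 2) (Fin 2) ℤ) * ((b : SL(2, ℤ)) : Matrix (Fin 2) (Fin 2) ℤ) := by
  rw [Subgroup.coe_mul, Matrix.SpecialLinearGroup.coe_mul]

theorem det_Gamma0 {K : ℕ} (a : Gamma0 K) :
    (a : SL(2, ℤ)) 0 0 * (a : SL(2, ℤ)) 1 1 - (a : SL(2, ℤ)) 0 1 * (a : SL(2, ℤ)) 1 0 = 1 := by
  have h := (a : SL(2, ℤ)).det_coe
  rwa [Matrix.det_fin_two] at h

section Bezout

variable (N q : ℕ)

/-- Bezout coefficient `u` with `q u - N v = 1`. -/
def bezU : ℤ := Int.gcdA q N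

/-- Bezout coefficient `v` with `q u - N v = 1`. -/
def bezV : ℤ := - Int.gcdB q N

variable {N q}

theorem bez_spec (hq : q.Prime) (hqN : ¬ q ∣ N) : (q : ℤ) * bezU N q - (N : ℤ) * bezV N q = 1 := by
  have h := Int.gcd_eq_gcd_ab (q : ℤ) (N : ℤ)
  have hg : Int.gcd (q : ℤ) (N : ℤ) = 1 := by
    rw [Int.gcd_natCast_natCast]
    exact (Nat.Prime.coprime_iff_not_dvd hq).mpr hqN
  rw [hg] at h
  unfold bezU bezV
  push_cast at h
  linear_combination -h

variable (N q)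

/-- The translation `[1, t; 0, 1]` in `Γ₀(K)`. -/
def translG (K : ℕ) (t : ℤ) : Gamma0 K := mkGamma0 K !![1, t; 0, 1]

theorem coe_translG (K : ℕ) (t : ℤ) :
    (((translG K t : Gamma0 K) : SL(2, ℤ)) : Matrix (Fin 2) (Fin 2) ℤ) = !![1, t; 0, 1] :=
  coe_mkGamma0 (by simp [Matrix.det_fin_two_of]) (by simp)

/-- `n₀ = [u, v; N, q] ∈ Γ₀(N)`. -/
def bezN : Gamma0 N := mkGamma0 N !![bezU N q, bezV N q; (N : ℤ), (q : ℤ)]

/-- `m₀ = [q u, v; N, 1] ∈ Γ₀(N)`. -/
def bezM : Gamma0 N := mkGamma0 N !![(q : ℤ) * bezU N q, bezV N q; (N : ℤ), 1]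

variable {N q}

theorem coe_bezN (hq : q.Prime) (hqN : ¬ q ∣ N) :
    (((bezN N q : Gamma0 N) : SL(2, ℤ)) : Matrix (Fin 2) (Fin 2) ℤ) =
      !![bezU N q, bezV N q; (N : ℤ), (q : ℤ)] :=
  coe_mkGamma0 (by rw [Matrix.det_fin_two_of]; linear_combination bez_spec hq hqN) (by simp)

theorem coe_bezM (hq : q.Prime) (hqN : ¬ q ∣ N) :
    (((bezM N q : Gamma0 N) : SL(2, ℤ)) : Matrix (Fin 2) (Fin 2) ℤ) =
      !![(q : ℤ) * bezU N q, bezV N q; (N : ℤ), 1] :=
  coe_mkGamma0 (by rw [Matrix.det_fin_two_of]; linear_combination bez_spec hq hqN) (by simp)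

variable (N q)

/-- Right coset representatives of `Γ₀(N q)` in `Γ₀(N)`: `r_∞ = 1`, `r_t = n₀ [1, t; 0, 1]`. -/
def coresRep (y : OnePoint (ZMod q)) : Gamma0 N :=
  y.elim 1 (fun t => bezN N q * translG N (t.val : ℤ))

/-- Right coset representatives of `δ Γ₀(N q) δ⁻¹` in `Γ₀(N)`: `r_∞ = m₀`, `r_t = [1, t; 0, 1]`. -/
def coresDRep (y : OnePoint (ZMod q)) : Gamma0 N :=
  y.elim (bezM N q) (fun t => translG N (t.val : ℤ))

@[simp] theorem coresRep_infty : coresRep N q OnePoint.infty = 1 := rfl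

@[simp] theorem coresRep_coe (t : ZMod q) :
    coresRep N q (t : OnePoint (ZMod q)) = bezN N q * translG N (t.val : ℤ) := rfl

@[simp] theorem coresDRep_infty : coresDRep N q OnePoint.infty = bezM N q := rfl

@[simp] theorem coresDRep_coe (t : ZMod q) :
    coresDRep N q (t : OnePoint (ZMod q)) = translG N (t.val : ℤ) := rfl

variable {N q}

theorem coe_coresRep_coe (hq : q.Prime) (hqN : ¬ q ∣ N) (t : ZMod q) :
    (((coresRep N q (t : OnePoint (ZMod q)) : Gamma0 N) : SL(2, ℤ)) :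
        Matrix (Fin 2) (Fin 2) ℤ) =
      !![bezU N q, bezU N q * (t.val : ℤ) + bezV N q; (N : ℤ), (N : ℤ) * (t.val : ℤ) + q] := by
  rw [coresRep_coe, coe_Gamma0_mul, coe_bezN hq hqN, coe_translG]
  ext i j
  fin_cases i <;> fin_cases j <;> simp [Matrix.mul_apply, Fin.sum_univ_two]

end Bezout

end Fermat.Agent.LDeg
end
end MergeWrap_L_Degen_Reps

section MergeWrap_L_Degen_Cover -- from L/Degen/Cover.lean

set_option autoImplicit false

noncomputable section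

namespace Fermat.Agent.LDeg

open CongruenceSubgroup Matrix.SpecialLinearGroup ModularCurve.Period
open Fermat.Agent.F3EC Fermat.Agent.L
open scoped MatrixGroups

variable {N q : ℕ}

theorem isCoprime_N_q (hq : q.Prime) (hqN : ¬ q ∣ N) : IsCoprime (N : ℤ) (q : ℤ) := by
  rw [Int.isCoprime_iff_gcd_eq_one, Int.gcd_natCast_natCast]
  exact (Nat.Coprime.symm ((Nat.Prime.coprime_iff_not_dvd hq).mpr hqN))

theorem N_ne_zero_mod (_hq : q.Prime) (hqN : ¬ q ∣ N) : ((N : ℤ) : ZMod q) ≠ 0 := by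
  intro h
  rw [ZMod.intCast_zmod_eq_zero_iff_dvd] at h
  exact hqN (by exact_mod_cast h)

theorem mem_Gamma0_mul (hq : q.Prime) (hqN : ¬ q ∣ N) {g : SL(2, ℤ)} (h1 : (N : ℤ) ∣ g 1 0)
    (h2 : (q : ℤ) ∣ g 1 0) : g ∈ Gamma0 (N * q) := by
  rw [mem_Gamma0_iff_dvd]
  push_cast
  exact (isCoprime_N_q hq hqN).mul_dvd h1 h2

theorem q_dvd_of_Gamma0_mul (e : Gamma0 (N * q)) : (q : ℤ) ∣ (e : SL(2, ℤ)) 1 0 :=
  Dvd.dvd.trans (by push_cast; exact Dvd.intro_left _ rfl) (Gamma0_dvd e)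

/-- The diagonal entries of an element of `Γ₀(N q)` are inverse to each other mod `q`. -/
theorem diag_mul_mod (e : Gamma0 (N * q)) :
    (((e : SL(2, ℤ)) 0 0 : ℤ) : ZMod q) * (((e : SL(2, ℤ)) 1 1 : ℤ) : ZMod q) = 1 := by
  have h := det_Gamma0 e
  have h2 : (((e : SL(2, ℤ)) 1 0 : ℤ) : ZMod q) = 0 :=
    (ZMod.intCast_zmod_eq_zero_iff_dvd _ _).mpr (q_dvd_of_Gamma0_mul e)
  have := congrArg (Int.cast : ℤ → ZMod q) h
  push_cast at this
  rw [h2, mul_zero, sub_zero] at this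
  exact this

section Incl

/-- Every element of `Γ₀(N)` lies in some coset `Γ₀(N q) r_y`. -/
theorem cover_incl (hq : q.Prime) (hqN : ¬ q ∣ N) (g : Gamma0 N) :
    ∃ (y : OnePoint (ZMod q)) (e : Gamma0 (N * q)), g = incl N q e * coresRep N q y := by
  have : Fact q.Prime := ⟨hq⟩
  by_cases hg : (q : ℤ) ∣ (g : SL(2, ℤ)) 1 0
  · refine ⟨OnePoint.infty, ⟨(g : SL(2, ℤ)), mem_Gamma0_mul hq hqN (Gamma0_dvd g) hg⟩, ?_⟩
    rw [coresRep_infty, mul_one]
    exact Subtype.ext rfl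
  · have hg0 : (((g : SL(2, ℤ)) 1 0 : ℤ) : ZMod q) ≠ 0 := by
      rwa [Ne, ZMod.intCast_zmod_eq_zero_iff_dvd]
    obtain ⟨t, htg⟩ : ∃ t : ZMod q,
        (((g : SL(2, ℤ)) 1 0 : ℤ) : ZMod q) * t = (((g : SL(2, ℤ)) 1 1 : ℤ) : ZMod q) :=
      ⟨(((g : SL(2, ℤ)) 1 1 : ℤ) : ZMod q) / (((g : SL(2, ℤ)) 1 0 : ℤ) : ZMod q), by field_simp⟩
    set R : Gamma0 N := coresRep N q (t : OnePoint (ZMod q)) with hR
    have hRm := coe_coresRep_coe hq hqN t
    have he0 : (g : SL(2, ℤ)) * ((R : Gamma0 N) : SL(2, ℤ))⁻¹ ∈ Gamma0 (N * q) := by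
      have hentry : ((g : SL(2, ℤ)) * ((R : Gamma0 N) : SL(2, ℤ))⁻¹) 1 0 =
          (g : SL(2, ℤ)) 1 0 * ((N : ℤ) * (t.val : ℤ) + q) - (g : SL(2, ℤ)) 1 1 * (N : ℤ) := by
        rw [Matrix.SpecialLinearGroup.coe_mul, Matrix.SpecialLinearGroup.coe_inv,
          Matrix.adjugate_fin_two, hRm]
        simp [Matrix.mul_apply, Fin.sum_univ_two]
        ring
      apply mem_Gamma0_mul hq hqN
      · rw [hentry]
        exact Dvd.dvd.sub (Dvd.dvd.mul_right (Gamma0_dvd g) _) (Dvd.intro_left _ rfl)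
      · rw [hentry, ← ZMod.intCast_zmod_eq_zero_iff_dvd]
        push_cast
        rw [ZMod.natCast_zmod_val, ZMod.natCast_self]
        linear_combination (N : ZMod q) * htg
    refine ⟨(t : OnePoint (ZMod q)), ⟨_, he0⟩, ?_⟩
    apply Subtype.ext
    rw [Subgroup.coe_mul, incl_coe]
    show (g : SL(2, ℤ)) = (g : SL(2, ℤ)) * ((R : Gamma0 N) : SL(2, ℤ))⁻¹ * (R : SL(2, ℤ))
    rw [inv_mul_cancel_right]

/-- The cosets `Γ₀(N q) r_y` are pairwise distinct. -/
theorem distinct_incl (hq : q.Prime) (hqN : ¬ q ∣ N) :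
    CosetsDistinct (incl N q) (coresRep N q) := by
  have : Fact q.Prime := ⟨hq⟩
  intro y y' e h
  have hN0 := N_ne_zero_mod hq hqN
  have he10 : (((e : SL(2, ℤ)) 1 0 : ℤ) : ZMod q) = 0 :=
    (ZMod.intCast_zmod_eq_zero_iff_dvd _ _).mpr (q_dvd_of_Gamma0_mul e)
  have hdiag := diag_mul_mod e
  have he11 : (((e : SL(2, ℤ)) 1 1 : ℤ) : ZMod q) ≠ 0 := by
    intro h0
    rw [h0, mul_zero] at hdiag
    exact zero_ne_one hdiag
  have hm : (((coresRep N q y : Gamma0 N) : SL(2, ℤ)) : Matrix (Fin 2) (Fin 2) ℤ) =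
      ((e : SL(2, ℤ)) : Matrix (Fin 2) (Fin 2) ℤ) *
        (((coresRep N q y' : Gamma0 N) : SL(2, ℤ)) : Matrix (Fin 2) (Fin 2) ℤ) := by
    rw [h, coe_Gamma0_mul, incl_coe]
  have e10 := congrFun (congrFun hm 1) 0
  have e11 := congrFun (congrFun hm 1) 1
  induction y using OnePoint.rec with
  | infty =>
    induction y' using OnePoint.rec with
    | infty => rfl
    | coe t' =>
      exfalso
      rw [coe_coresRep_coe hq hqN] at e10
      simp [Matrix.mul_apply, Fin.sum_univ_two] at e10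
      have := congrArg (Int.cast : ℤ → ZMod q) e10
      push_cast at this
      rw [he10, zero_mul, zero_add] at this
      rcases mul_eq_zero.mp this.symm with h1 | h1
      · exact he11 h1
      · exact hN0 (by exact_mod_cast h1)
  | coe t =>
    induction y' using OnePoint.rec with
    | infty =>
      exfalso
      rw [coe_coresRep_coe hq hqN] at e10
      simp [Matrix.mul_apply, Fin.sum_univ_two] at e10
      have := congrArg (Int.cast : ℤ → ZMod q) e10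
      push_cast at this
      rw [he10] at this
      exact hN0 (by exact_mod_cast this)
    | coe t' =>
      rw [coe_coresRep_coe hq hqN, coe_coresRep_coe hq hqN] at e10 e11
      simp [Matrix.mul_apply, Fin.sum_univ_two, -ZMod.natCast_val] at e10 e11
      have h10 := congrArg (Int.cast : ℤ → ZMod q) e10
      have h11 := congrArg (Int.cast : ℤ → ZMod q) e11
      push_cast at h10 h11
      rw [he10, zero_mul, zero_add] at h10
      rw [he10, zero_mul, zero_add, ZMod.natCast_zmod_val, ZMod.natCast_zmod_val,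
        ZMod.natCast_self, add_zero, add_zero] at h11
      have hN0' : ((N : ℕ) : ZMod q) ≠ 0 := by exact_mod_cast hN0
      have h1 : (((e : SL(2, ℤ)) 1 1 : ℤ) : ZMod q) = 1 := by
        have : (((e : SL(2, ℤ)) 1 1 : ℤ) : ZMod q) * (N : ZMod q) = 1 * (N : ZMod q) := by
          rw [one_mul]; exact h10.symm
        exact mul_right_cancel₀ hN0' this
      rw [h1, one_mul] at h11
      congr 1
      exact mul_left_cancel₀ hN0' h11

end Incl

section InclD

theorem coe_coresDRep_coe (t : ZMod q) :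
    (((coresDRep N q (t : OnePoint (ZMod q)) : Gamma0 N) : SL(2, ℤ)) :
        Matrix (Fin 2) (Fin 2) ℤ) = !![1, (t.val : ℤ); 0, 1] := by
  rw [coresDRep_coe, coe_translG]

theorem coe_coresDRep_infty (hq : q.Prime) (hqN : ¬ q ∣ N) :
    (((coresDRep N q OnePoint.infty : Gamma0 N) : SL(2, ℤ)) : Matrix (Fin 2) (Fin 2) ℤ) =
      !![(q : ℤ) * bezU N q, bezV N q; (N : ℤ), 1] := by
  rw [coresDRep_infty, coe_bezM hq hqN]

variable [NeZero q]

theorem inclD_apply_zero_one (e : Gamma0 (N * q)) :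
    ((inclD N q e : Gamma0 N) : SL(2, ℤ)) 0 1 = (q : ℤ) * (e : SL(2, ℤ)) 0 1 := by
  show (((inclD N q e : Gamma0 N) : SL(2, ℤ)) : Matrix (Fin 2) (Fin 2) ℤ) 0 1 = _
  rw [inclD_coe]
  simp [conjDMat]

theorem inclD_apply_zero_zero (e : Gamma0 (N * q)) :
    ((inclD N q e : Gamma0 N) : SL(2, ℤ)) 0 0 = (e : SL(2, ℤ)) 0 0 := by
  show (((inclD N q e : Gamma0 N) : SL(2, ℤ)) : Matrix (Fin 2) (Fin 2) ℤ) 0 0 = _
  rw [inclD_coe]
  simp [conjDMat]

/-- The image of `inclD`: the elements of `Γ₀(N)` with upper right entry divisible by `q`. -/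
theorem exists_inclD_eq (g : Gamma0 N) (hg : (q : ℤ) ∣ (g : SL(2, ℤ)) 0 1) :
    ∃ e : Gamma0 (N * q), inclD N q e = g := by
  obtain ⟨b, hb⟩ := hg
  obtain ⟨c, hc⟩ := Gamma0_dvd g
  have hq0 : (q : ℤ) ≠ 0 := by exact_mod_cast NeZero.ne q
  have hdet := det_Gamma0 g
  have hcoe : (((mkGamma0 (N * q)
      !![(g : SL(2, ℤ)) 0 0, b; (q : ℤ) * (g : SL(2, ℤ)) 1 0, (g : SL(2, ℤ)) 1 1] :
        Gamma0 (N * q)) : SL(2, ℤ)) : Matrix (Fin 2) (Fin 2) ℤ) =
      !![(g : SL(2, ℤ)) 0 0, b; (q : ℤ) * (g : SL(2, ℤ)) 1 0, (g : SL(2, ℤ)) 1 1] := by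
    apply coe_mkGamma0
    · rw [Matrix.det_fin_two_of]
      rw [hb] at hdet
      linear_combination hdet
    · simp only [Matrix.of_apply, Matrix.cons_val', Matrix.cons_val_one, Matrix.cons_val_zero]
      rw [hc]
      push_cast
      exact ⟨c, by ring⟩
  refine ⟨mkGamma0 (N * q)
    !![(g : SL(2, ℤ)) 0 0, b; (q : ℤ) * (g : SL(2, ℤ)) 1 0, (g : SL(2, ℤ)) 1 1], ?_⟩
  apply Gamma0_ext
  rw [inclD_coe]
  unfold conjDMat
  have h00 : ∀ i j, ((mkGamma0 (N * q)
      !![(g : SL(2, ℤ)) 0 0, b; (q : ℤ) * (g : SL(2, ℤ)) 1 0, (g : SL(2, ℤ)) 1 1] :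
        Gamma0 (N * q)) : SL(2, ℤ)) i j =
      (!![(g : SL(2, ℤ)) 0 0, b; (q : ℤ) * (g : SL(2, ℤ)) 1 0, (g : SL(2, ℤ)) 1 1] :
        Matrix (Fin 2) (Fin 2) ℤ) i j := fun i j => congrFun (congrFun hcoe i) j
  ext i j
  fin_cases i <;> fin_cases j
  · simp [h00]
  · simp [h00, hb]
  · simp [h00, Int.mul_ediv_cancel_left _ hq0]
  · simp [h00]

/-- Every element of `Γ₀(N)` lies in some coset `δ Γ₀(N q) δ⁻¹ r_y`. -/
theorem cover_inclD (hq : q.Prime) (hqN : ¬ q ∣ N) (g : Gamma0 N) :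
    ∃ (y : OnePoint (ZMod q)) (e : Gamma0 (N * q)), g = inclD N q e * coresDRep N q y := by
  have : Fact q.Prime := ⟨hq⟩
  by_cases hg : (q : ℤ) ∣ (g : SL(2, ℤ)) 0 0
  · have hmem : (q : ℤ) ∣ ((g * (coresDRep N q OnePoint.infty)⁻¹ : Gamma0 N) : SL(2, ℤ)) 0 1 := by
      have hentry : ((g * (coresDRep N q OnePoint.infty)⁻¹ : Gamma0 N) : SL(2, ℤ)) 0 1 =
          - (g : SL(2, ℤ)) 0 0 * bezV N q + (g : SL(2, ℤ)) 0 1 * ((q : ℤ) * bezU N q) := by
        rw [Subgroup.coe_mul, Subgroup.coe_inv, Matrix.SpecialLinearGroup.coe_mul,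
          Matrix.SpecialLinearGroup.coe_inv, Matrix.adjugate_fin_two,
          coe_coresDRep_infty hq hqN]
        simp [Matrix.mul_apply, Fin.sum_univ_two]
      rw [hentry]
      exact Dvd.dvd.add (Dvd.dvd.mul_right (Dvd.dvd.neg_right hg) _)
        (Dvd.dvd.mul_left (Dvd.intro _ rfl) _)
    obtain ⟨e, he⟩ := exists_inclD_eq _ hmem
    exact ⟨OnePoint.infty, e, by rw [he, inv_mul_cancel_right]⟩
  · have hg0 : (((g : SL(2, ℤ)) 0 0 : ℤ) : ZMod q) ≠ 0 := by
      rwa [Ne, ZMod.intCast_zmod_eq_zero_iff_dvd]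
    obtain ⟨t, htg⟩ : ∃ t : ZMod q,
        (((g : SL(2, ℤ)) 0 0 : ℤ) : ZMod q) * t = (((g : SL(2, ℤ)) 0 1 : ℤ) : ZMod q) :=
      ⟨(((g : SL(2, ℤ)) 0 1 : ℤ) : ZMod q) / (((g : SL(2, ℤ)) 0 0 : ℤ) : ZMod q), by field_simp⟩
    have hmem : (q : ℤ) ∣
        ((g * (coresDRep N q (t : OnePoint (ZMod q)))⁻¹ : Gamma0 N) : SL(2, ℤ)) 0 1 := by
      have hentry : ((g * (coresDRep N q (t : OnePoint (ZMod q)))⁻¹ : Gamma0 N) : SL(2, ℤ)) 0 1 =
          - (g : SL(2, ℤ)) 0 0 * (t.val : ℤ) + (g : SL(2, ℤ)) 0 1 := by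
        rw [Subgroup.coe_mul, Subgroup.coe_inv, Matrix.SpecialLinearGroup.coe_mul,
          Matrix.SpecialLinearGroup.coe_inv, Matrix.adjugate_fin_two, coe_coresDRep_coe]
        simp [Matrix.mul_apply, Fin.sum_univ_two, -ZMod.natCast_val]
      rw [hentry, ← ZMod.intCast_zmod_eq_zero_iff_dvd]
      push_cast
      rw [ZMod.natCast_zmod_val]
      linear_combination -htg
    obtain ⟨e, he⟩ := exists_inclD_eq _ hmem
    exact ⟨(t : OnePoint (ZMod q)), e, by rw [he, inv_mul_cancel_right]⟩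

/-- The cosets `δ Γ₀(N q) δ⁻¹ r_y` are pairwise distinct. -/
theorem distinct_inclD (hq : q.Prime) (hqN : ¬ q ∣ N) :
    CosetsDistinct (inclD N q) (coresDRep N q) := by
  have : Fact q.Prime := ⟨hq⟩
  intro y y' e h
  have hdiag := diag_mul_mod e
  have he00 : (((e : SL(2, ℤ)) 0 0 : ℤ) : ZMod q) ≠ 0 := by
    intro h0
    rw [h0, zero_mul] at hdiag
    exact zero_ne_one hdiag
  have hm : (((coresDRep N q y : Gamma0 N) : SL(2, ℤ)) : Matrix (Fin 2) (Fin 2) ℤ) =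
      (((inclD N q e : Gamma0 N) : SL(2, ℤ)) : Matrix (Fin 2) (Fin 2) ℤ) *
        (((coresDRep N q y' : Gamma0 N) : SL(2, ℤ)) : Matrix (Fin 2) (Fin 2) ℤ) := by
    rw [h, coe_Gamma0_mul]
  have e00 := congrFun (congrFun hm 0) 0
  have e01 := congrFun (congrFun hm 0) 1
  rw [Matrix.mul_apply, Fin.sum_univ_two] at e00 e01
  have h00 := inclD_apply_zero_zero e
  have h01 := inclD_apply_zero_one e
  change (((inclD N q e : Gamma0 N) : SL(2, ℤ)) : Matrix (Fin 2) (Fin 2) ℤ) 0 0 = _ at h00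
  change (((inclD N q e : Gamma0 N) : SL(2, ℤ)) : Matrix (Fin 2) (Fin 2) ℤ) 0 1 = _ at h01
  rw [h00, h01] at e00 e01
  induction y using OnePoint.rec with
  | infty =>
    induction y' using OnePoint.rec with
    | infty => rfl
    | coe t' =>
      exfalso
      rw [coe_coresDRep_infty hq hqN, coe_coresDRep_coe] at e00
      simp at e00
      have := congrArg (Int.cast : ℤ → ZMod q) e00
      push_cast at this
      rw [ZMod.natCast_self, zero_mul] at this
      exact he00 this.symm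
  | coe t =>
    induction y' using OnePoint.rec with
    | infty =>
      exfalso
      rw [coe_coresDRep_infty hq hqN, coe_coresDRep_coe] at e00
      simp at e00
      have := congrArg (Int.cast : ℤ → ZMod q) e00
      push_cast at this
      have h1 : (1 : ZMod q) = 0 := by simpa [ZMod.natCast_self] using this
      exact one_ne_zero h1
    | coe t' =>
      rw [coe_coresDRep_coe, coe_coresDRep_coe] at e00 e01
      simp [-ZMod.natCast_val] at e00 e01
      have h1 := congrArg (Int.cast : ℤ → ZMod q) e01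
      push_cast at h1
      rw [← e00, ZMod.natCast_zmod_val, ZMod.natCast_zmod_val, ZMod.natCast_self, zero_mul,
        add_zero] at h1
      congr 1
      simpa using h1

end InclD

section Wreath

/-- The wreath hom of the corestriction along `incl`. -/
def coresW (hq : q.Prime) (hqN : ¬ q ∣ N) :
    WreathHom (Gamma0 N) (Gamma0 (N * q)) (OnePoint (ZMod q)) :=
  WreathHom.ofUnique (ι := MonoidHom.id (Gamma0 N)) (ι' := incl N q) (rep := coresRep N q)
    (fun γ i => by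
      obtain ⟨y, e, h⟩ := cover_incl hq hqN (coresRep N q i * γ)
      exact ⟨y, e, h⟩)
    (Subgroup.inclusion_injective _) (distinct_incl hq hqN)

theorem coresW_realizes (hq : q.Prime) (hqN : ¬ q ∣ N) :
    (coresW hq hqN).Realizes (MonoidHom.id (Gamma0 N)) (incl N q) (coresRep N q) :=
  WreathHom.ofUnique_realizes _ _ _

variable [NeZero q]

/-- The wreath hom of the corestriction along `inclD`. -/
def coresDW (hq : q.Prime) (hqN : ¬ q ∣ N) :
    WreathHom (Gamma0 N) (Gamma0 (N * q)) (OnePoint (ZMod q)) :=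
  WreathHom.ofUnique (ι := MonoidHom.id (Gamma0 N)) (ι' := inclD N q) (rep := coresDRep N q)
    (fun γ i => by
      obtain ⟨y, e, h⟩ := cover_inclD hq hqN (coresDRep N q i * γ)
      exact ⟨y, e, h⟩)
    (inclD_injective N q) (distinct_inclD hq hqN)

theorem coresDW_realizes (hq : q.Prime) (hqN : ¬ q ∣ N) :
    (coresDW hq hqN).Realizes (MonoidHom.id (Gamma0 N)) (inclD N q) (coresDRep N q) :=
  WreathHom.ofUnique_realizes _ _ _

end Wreath

end Fermat.Agent.LDeg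
end
end MergeWrap_L_Degen_Cover
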