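import Fermat.Agent.MUL.Orig.L.Degen.CoresPar
import Fermat.Agent.MUL.L.Degen.Cover

section MergeWrap_L_Degen_CoresIndex -- from L/Degen/CoresIndex.lean

set_option autoImplicit false

noncomputable section

namespace Fermat.Agent.LDeg

open CongruenceSubgroup Matrix.SpecialLinearGroup ModularCurve.Period Fermat.Agent.F3EC
open scoped MatrixGroups

variable {N q : ℕ}

theorem card_onePoint_zmod [NeZero q] : Fintype.card (OnePoint (ZMod q)) = q + 1 := by
  have h : Fintype.card (OnePoint (ZMod q)) = Fintype.card (Option (ZMod q)) :=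
    Fintype.card_congr (Equiv.refl _)
  rw [h, Fintype.card_option, ZMod.card]

section Index

variable [NeZero q]

theorem index_incl (hq : q.Prime) (hqN : ¬ q ∣ N) : (L.incl N q).range.index = q + 1 := by
  rw [index_range_of_realizes (coresW_realizes hq hqN) (distinct_incl hq hqN),
    card_onePoint_zmod]

theorem index_inclD (hq : q.Prime) (hqN : ¬ q ∣ N) : (L.inclD N q).range.index = q + 1 := by
  rw [index_range_of_realizes (coresDW_realizes hq hqN) (distinct_inclD hq hqN),
    card_onePoint_zmod]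

theorem finiteIndex_incl (hq : q.Prime) (hqN : ¬ q ∣ N) : (L.incl N q).range.FiniteIndex :=
  finiteIndex_range_of_realizes (coresW_realizes hq hqN)

theorem finiteIndex_inclD (hq : q.Prime) (hqN : ¬ q ∣ N) : (L.inclD N q).range.FiniteIndex :=
  finiteIndex_range_of_realizes (coresDW_realizes hq hqN)

/-- The corestriction along `incl` is the operator of `coresW`. -/
theorem coresAll_eq_op (hq : q.Prime) (hqN : ¬ q ∣ N) (A : Type*) [AddCommGroup A]
    (c : Additive (Gamma0 (N * q)) →+ A) :
    L.coresAll N q A c = (coresW hq hqN).op A c :=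
  coresFun_eq_op (L.incl N q) (incl_injective N q) (coresW hq hqN) (coresRep N q)
    (coresW_realizes hq hqN) (distinct_incl hq hqN) A c

/-- The corestriction along `inclD` is the operator of `coresDW`. -/
theorem coresAllD_eq_op (hq : q.Prime) (hqN : ¬ q ∣ N) (A : Type*) [AddCommGroup A]
    (c : Additive (Gamma0 (N * q)) →+ A) :
    L.coresAllD N q A c = (coresDW hq hqN).op A c :=
  coresFun_eq_op (L.inclD N q) (L.inclD_injective N q) (coresDW hq hqN) (coresDRep N q)
    (coresDW_realizes hq hqN) (distinct_inclD hq hqN) A c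

theorem coresAll_resAll_eq (hq : q.Prime) (hqN : ¬ q ∣ N) {A : Type*} [AddCommGroup A]
    (c : Additive (Gamma0 N) →+ A) :
    L.coresAll N q A (L.resAll N q A c) = ((q : ℤ) + 1) • c :=
  coresAll_resAll (index_incl hq hqN) c

theorem coresAllD_resAllD_eq (hq : q.Prime) (hqN : ¬ q ∣ N) {A : Type*} [AddCommGroup A]
    (c : Additive (Gamma0 N) →+ A) :
    L.coresAllD N q A (L.resAllD N q A c) = ((q : ℤ) + 1) • c :=
  coresAllD_resAllD (index_inclD hq hqN) c

theorem coresPar_resPar_eq (hq : q.Prime) (hqN : ¬ q ∣ N) (c : HomPar N) :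
    coresPar N q (L.resPar N q c) = ((q : ℤ) + 1) • c :=
  coresPar_resPar (index_incl hq hqN) c

theorem coresParD_resParD_eq (hq : q.Prime) (hqN : ¬ q ∣ N) (c : HomPar N) :
    coresParD N q (L.resParD N q c) = ((q : ℤ) + 1) • c :=
  coresParD_resParD (index_inclD hq hqN) c

/-- **DEG-1**: the pair of corestrictions exists on `HomPar`, and `β₁ ∘ res = q + 1`,
`β₂ ∘ res_δ = q + 1`. -/
theorem exists_coresPair (hq : q.Prime) (hqN : ¬ q ∣ N) :
    ∃ β₁ β₂ : HomPar (N * q) →ₗ[ℤ] HomPar N, L.IsCoresPair N q β₁ β₂ ∧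
      (∀ c : HomPar N, β₁ (L.resPar N q c) = ((q : ℤ) + 1) • c) ∧
      (∀ c : HomPar N, β₂ (L.resParD N q c) = ((q : ℤ) + 1) • c) :=
  ⟨coresPar N q, coresParD N q, isCoresPair N q, coresPar_resPar_eq hq hqN,
    coresParD_resParD_eq hq hqN⟩

end Index

end Fermat.Agent.LDeg
end
end MergeWrap_L_Degen_CoresIndex
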